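import Fermat.Agent.S59.H667.E23Final
import Fermat.Agent.Lib.Frob.Small.All
import Fermat.Agent.S59.H127.Inputs
import Fermat.Agent.S59.H127.TateE
import Fermat.Agent.S59.H899.Unram

/-!
# S59 / layer E — discharge of the finite-level inputs `CR-F` and `CR-D` of helper127's assembly

`Fermat.Agent.S59.H127.Inputs` freezes the finite-level inputs of `Arch.CurveRep`.  This file
proves two of them in the exact shapes:

* `frobRelInput p W : H127.FrobRelInput p W`  (unconditional: every good prime `ℓ ≠ p`,
  including `ℓ = 2, 3`; from helper545's `Lib.Frob.Small.frobRelationAll`);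
* `detInput_of_irreducible : W.Δ ≠ 0 → W.ModRepIsIrreducible p → H127.DetInput p W`
  (the hypotheses are those of `Arch.CurveRepStatement`);
* `unramInput p W : H127.UnramInput p W`  (unconditional; helper899's
  `H899.inertia_smul_eq_self_of_good` in the `H127` shape).

With helper240's `unipInput_of_semistable` these are four of the six inputs of `CR-ASM`
(`H127/AsmZp.lean`); the remaining two are `FlatInput` (CR-FLAT) and `OrdInput` (CR-ORD).
-/

set_option autoImplicit false
set_option linter.style.haveILetI false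

open WeierstrassCurve WeierstrassCurve.Affine WeierstrassCurve.Affine.Point

namespace Fermat.Agent.S59.H667

/-- **CR-F**: the Frobenius relation on `E[p^∞]` at every good prime `ℓ ≠ p`. -/
theorem frobRelInput (p : ℕ) (hp : p.Prime) (W : WeierstrassCurve ℤ) :
    Fermat.Agent.S59.H127.FrobRelInput p W := by
  intro ℓ hℓ hgood hℓp A hA σ hσ n x hx
  exact Fermat.Agent.Lib.Frob.Small.frobRelationAll W ℓ hℓ hgood A σ hA hσ (p ^ n)
    (pow_pos hp.pos n) (not_dvd_pow_of_prime_ne hp hℓ hℓp n) x hx

/-- **CR-D**: the determinant on `E[p^n]` is the cyclotomic character, for irreducible `E[p]`. -/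
theorem detInput_of_irreducible (p : ℕ) [Fact p.Prime] (W : WeierstrassCurve ℤ) (hΔ : W.Δ ≠ 0)
    (hirr : W.ModRepIsIrreducible p) : Fermat.Agent.S59.H127.DetInput p W := by
  intro n σ a ha
  have hE := isElliptic_of_Δ_ne_zero W hΔ
  obtain ⟨cb⟩ : Nonempty (Fermat.Agent.S59.H127.CompatBasis (PtsE W) p 2) :=
    Fermat.Agent.S59.H127.nonempty_compatBasis_point _ p
  exact det_rhoFin_eq_natCast' W hΔ p hirr cb n σ a ha

/-- **CR-U**: inertia at a good prime `ℓ ≠ p` acts trivially on `E[p^∞]`. -/
theorem unramInput (p : ℕ) (hp : p.Prime) (W : WeierstrassCurve ℤ) :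
    Fermat.Agent.S59.H127.UnramInput p W := by
  intro ℓ hℓ hgood hℓp A hA σ hσ n x hx
  exact Fermat.Agent.S59.H899.inertia_smul_eq_self_of_good W hℓ hgood
    (not_dvd_pow_of_prime_ne hp hℓ hℓp n) A hA σ hσ x hx

end Fermat.Agent.S59.H667
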