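import Fermat.Agent.S59.H667.E23Galois
import Fermat.Agent.S59.H127.BridgeE
import Fermat.Agent.Lib.Frob.Glue
import Fermat.Agent.Lib.Frob.A1.Main
import Fermat.Agent.Lib.Frob.A2.Main
import Fermat.Agent.Lib.Cheb.FrobeniusDivision

/-!
# S59 / layer E, pieces E2+E3 for the Tate module (helper667)

Unconditional versions of `E23Galois.lean` (the inputs `FrobRelation` and
`FrobeniusDivisionStatement` are on main) and their transport, through helper127's bridge
(`S59/H127/BridgeE.lean`), to the `p`-adic Tate module `tateGaloisRep W' cb : GaloisRepAdic ℤ_[p]`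
of an integral Weierstrass model `W` with `Δ ≠ 0` and irreducible `E[p]`:

* `tate_detIsCyclotomic` : `(tateGaloisRep W' cb).DetIsCyclotomic p`   (field `det` of `CurveRep`);
* `tate_charpoly_frob`   : `charpoly ρ(Frob_ℓ) = X² − a_ℓ X + ℓ` for good `ℓ ≥ 5`, `ℓ ≠ p`
  (field `charpoly_frob` of `CurveRep`, except for `ℓ ∈ {2, 3}`).
-/

set_option autoImplicit false

open WeierstrassCurve WeierstrassCurve.Affine WeierstrassCurve.Affine.Point Polynomial

namespace Fermat.Agent.S59.H667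

/-- the Frobenius relation (Lib/Frob), unconditionally -/
theorem frobRelationE : Fermat.Agent.Lib.Frob.FrobRelation :=
  Fermat.Agent.Lib.Frob.frobRelation_of_parts Fermat.Agent.Lib.Frob.frobRelationFin
    Fermat.Agent.Lib.Frob.reductionData

variable (W : WeierstrassCurve ℤ) (hΔ : W.Δ ≠ 0) (p : ℕ) [Fact p.Prime]

include hΔ in
theorem isElliptic_of_Δ_ne_zero : ((W.map (Int.castRingHom ℚ))⁄QbE).IsElliptic := by
  refine ⟨isUnit_iff_ne_zero.mpr ?_⟩
  simp only [WeierstrassCurve.baseChange, WeierstrassCurve.map_Δ]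
  simpa using hΔ

variable (hirr : W.ModRepIsIrreducible p)
  (cb : Fermat.Agent.S59.H127.CompatBasis (PtsE W) p 2)

include hΔ hirr in
theorem exists_not_isScalarOnP' : ∃ h : GQE, ¬ IsScalarOnP W p h := by
  have := isElliptic_of_Δ_ne_zero W hΔ
  exact exists_not_isScalarOnP W p hirr
    (Fermat.Agent.S59.H127.card_torsion_prime (W.map (Int.castRingHom ℚ)) p)

include hΔ hirr cb in
/-- (E3) at finite level, unconditional. -/
theorem det_rhoFin_eq_natCast' (n : ℕ) (σ : GQE) (a : ℕ)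
    (ha : ∀ μ : QbE, μ ^ p ^ n = 1 → σ μ = μ ^ a) :
    LinearMap.det (rhoFin W (p ^ n) σ) = (a : ZMod (p ^ n)) := by
  rcases Nat.eq_zero_or_pos n with rfl | hn
  · have : Subsingleton (ZMod (p ^ 0)) := by
      rw [pow_zero]
      infer_instance
    exact Subsingleton.elim _ _
  · exact det_rhoFin_eq_natCast W frobRelationE Fermat.Agent.Lib.Cheb.frobeniusDivision hΔ p n hn
      (cb.levelBasis n) (exists_not_isScalarOnP' W hΔ p hirr) σ a ha

include hΔ hirr cb in
/-- (E2) at finite level, unconditional. -/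
theorem charpoly_rhoFin_frob' (n : ℕ)
    (ℓ : ℕ) (hℓ : ℓ.Prime) (h5 : 5 ≤ ℓ) (hgood : W.IsGoodPrimeFor ℓ) (hℓp : ℓ ≠ p)
    (A : ValuationSubring QbE) (hA : A.LiesOverPrime ℓ) (τ : GQE) (hτ : A.IsFrobeniusAt τ ℓ) :
    haveI := cb.free_level n
    haveI := cb.finite_level n
    LinearMap.charpoly (rhoFin W (p ^ n) τ)
      = X ^ 2 - C ((W.apOfModel ℓ : ℤ) : ZMod (p ^ n)) * X + C (((ℓ : ℤ) : ZMod (p ^ n))) := by
  rcases Nat.eq_zero_or_pos n with rfl | hn
  · have : Subsingleton (ZMod (p ^ 0)) := by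
      rw [pow_zero]
      infer_instance
    exact Subsingleton.elim _ _
  · have h := charpoly_rhoFin_frob W frobRelationE Fermat.Agent.Lib.Cheb.frobeniusDivision hΔ p n
      hn (cb.levelBasis n) (exists_not_isScalarOnP' W hΔ p hirr) ℓ hℓ h5 hgood hℓp A hA τ hτ
    rw [Int.cast_natCast]
    exact h

section Tate

variable [hE : ((W.map (Int.castRingHom ℚ))⁄(AlgebraicClosure ℚ)).IsElliptic]

include hΔ hirr in
/-- **(E3) for the Tate module**: its determinant is the `p`-adic cyclotomic character. -/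
theorem tate_detIsCyclotomic :
    (Fermat.Agent.S59.H127.tateGaloisRep (W.map (Int.castRingHom ℚ)) cb).DetIsCyclotomic p :=
  Fermat.Agent.S59.H127.detIsCyclotomic_of_level (W.map (Int.castRingHom ℚ)) cb
    (fun n σ a ha => det_rhoFin_eq_natCast' W hΔ p hirr cb n σ a ha)

include hΔ hirr in
/-- **(E2) for the Tate module**: the characteristic polynomial of a Frobenius element at a prime
`ℓ ≥ 5`, `ℓ ≠ p`, of good reduction is `X² − a_ℓ X + ℓ`. -/
theorem tate_charpoly_frob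
    (ℓ : ℕ) (hℓ : ℓ.Prime) (h5 : 5 ≤ ℓ) (hgood : W.IsGoodPrimeFor ℓ) (hℓp : ℓ ≠ p)
    (A : ValuationSubring QbE) (hA : A.LiesOverPrime ℓ) (τ : GQE) (hτ : A.IsFrobeniusAt τ ℓ) :
    LinearMap.charpoly ((Fermat.Agent.S59.H127.tateGaloisRep (W.map (Int.castRingHom ℚ)) cb).ρ τ)
      = X ^ 2 - C ((W.apOfModel ℓ : ℤ) : ℤ_[p]) * X + C (((ℓ : ℤ) : ℤ_[p])) :=
  Fermat.Agent.S59.H127.charpoly_tate_eq_quadratic_of_level (W.map (Int.castRingHom ℚ)) cb τ
    (W.apOfModel ℓ) (ℓ : ℤ)
    (fun n => charpoly_rhoFin_frob' W hΔ p hirr cb n ℓ hℓ h5 hgood hℓp A hA τ hτ)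

end Tate

end Fermat.Agent.S59.H667
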