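import Fermat.Agent.S59.H667.E23LinAlg
import Fermat.Agent.Lib.Frob.Statement
import Fermat.Agent.Lib.Cheb.Spec
import Fermat.Agent.S55.H414.CycloPow

/-!
# S59 / layer E, pieces E2+E3 at finite level (helper667)

For the Galois module `E[p^n] = W(ℚ̄)[p^n]` of an integral Weierstrass model `W` (with `Δ ≠ 0`),
assuming it is free of rank two over `ℤ/p^n` (a basis is passed as a hypothesis) and that some
element of `G_ℚ` does not act as a scalar on `E[p]` (true as soon as `E[p]` is irreducible):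

* `det_rhoFin_eq_cycloPow` / `det_rhoFin_eq_natCast` (E3): `det ρ_{p^n}(σ)` is the mod `p^n`
  cyclotomic character of `σ` — WITHOUT the Weil pairing;
* `charpoly_rhoFin_frob` (E2): for a Frobenius element `τ` at a prime `ℓ ≥ 5`, `ℓ ≠ p`, of good
  reduction, `charpoly ρ_{p^n}(τ) = X² − a_ℓ X + ℓ`.

Inputs (passed as hypotheses, both proved on main):
`Fermat.Agent.Lib.Frob.FrobRelation` and `Fermat.Agent.Lib.Cheb.Spec.FrobeniusDivisionStatement`.
-/

set_option autoImplicit false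

open WeierstrassCurve WeierstrassCurve.Affine WeierstrassCurve.Affine.Point Polynomial

namespace Fermat.Agent.S59.H667

/-- `ℚ̄` -/
abbrev QbE : Type := AlgebraicClosure ℚ

/-- `Gal(ℚ̄/ℚ)` -/
abbrev GQE : Type := QbE ≃ₐ[ℚ] QbE

/-- `W(ℚ̄)` -/
abbrev PtsE (W : WeierstrassCurve ℤ) : Type :=
  ((W.map (Int.castRingHom ℚ))⁄QbE).Point

/-- `W(ℚ̄)[m]` -/
abbrev TorsE (W : WeierstrassCurve ℤ) (m : ℕ) : Type :=
  Submodule.torsionBy ℤ (PtsE W) m

/-- the Galois representation on `W(ℚ̄)[m]` -/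
noncomputable abbrev rhoFin (W : WeierstrassCurve ℤ) (m : ℕ) :
    GQE →* Module.End (ZMod m) (TorsE W m) :=
  galoisRepModuleEnd (K := QbE) ℚ (W.map (Int.castRingHom ℚ)) m

variable (W : WeierstrassCurve ℤ)

theorem rhoFin_apply (m : ℕ) (σ : GQE) (x : TorsE W m) : rhoFin W m σ x = σ • x := rfl

theorem coe_smul_torsE (m : ℕ) (σ : GQE) (x : TorsE W m) :
    ((σ • x : TorsE W m) : PtsE W) = σ • (x : PtsE W) := rfl

theorem coe_zmod_smul_torsE (m : ℕ) (c : ℤ) (x : TorsE W m) :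
    (((c : ZMod m) • x : TorsE W m) : PtsE W) = c • (x : PtsE W) := by
  rw [Int.cast_smul_eq_zsmul]
  rfl

theorem natCast_nsmul_torsE (m : ℕ) (x : TorsE W m) : m • (x : PtsE W) = 0 := by
  have h := x.2
  rw [Submodule.mem_torsionBy_iff] at h
  rw [← natCast_zsmul]
  exact h

/-- **Frobenius relation in `End(E[m])`.** -/
theorem frob_relation_end (hFrob : Fermat.Agent.Lib.Frob.FrobRelation) (ℓ : ℕ) (hℓ : ℓ.Prime)
    (h5 : 5 ≤ ℓ) (hgood : W.IsGoodPrimeFor ℓ) (A : ValuationSubring QbE) (τ : GQE)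
    (hA : A.LiesOverPrime ℓ) (hτ : A.IsFrobeniusAt τ ℓ) (m : ℕ) (hm : 0 < m) (hℓm : ¬ ℓ ∣ m) :
    rhoFin W m τ * rhoFin W m τ - ((W.apOfModel ℓ : ℤ) : ZMod m) • rhoFin W m τ
      + ((ℓ : ℤ) : ZMod m) • (1 : Module.End (ZMod m) (TorsE W m)) = 0 := by
  apply LinearMap.ext
  intro x
  apply Subtype.ext
  have key := hFrob W ℓ hℓ h5 hgood A τ hA hτ m hm hℓm (x : PtsE W) (natCast_nsmul_torsE W m x)
  simp only [LinearMap.add_apply, LinearMap.sub_apply, LinearMap.smul_apply, Module.End.mul_apply,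
    Module.End.one_apply, rhoFin_apply, LinearMap.zero_apply, Submodule.coe_add, Submodule.coe_sub,
    coe_zmod_smul_torsE, coe_smul_torsE, ZeroMemClass.coe_zero]
  exact key

/-- A Frobenius element at `ℓ ≠ p` raises `p^n`-th roots of unity to the `ℓ`-th power. -/
theorem frob_apply_root (p : ℕ) (hp : p.Prime) (n : ℕ) (ℓ : ℕ) (hℓ : ℓ.Prime) (hℓp : ℓ ≠ p)
    (A : ValuationSubring QbE) (τ : GQE) (hA : A.LiesOverPrime ℓ) (hτ : A.IsFrobeniusAt τ ℓ)
    (μ : QbE) (hμ : μ ^ p ^ n = 1) : τ μ = μ ^ ℓ := by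
  have hv : A.valuation ((p ^ n : ℕ) : QbE) = 1 := by
    rw [Nat.cast_pow, map_pow, Fermat.Agent.S55.Bridge.val_prime_eq_one hA hℓ hp hℓp, one_pow]
  exact Fermat.Agent.S55.H414.IsFrobeniusAt_apply_root hτ (pow_ne_zero n hp.ne_zero) hv hμ

/-! ### Scalar action on `E[p]` -/

/-- `σ` acts on `E[p]` as multiplication by an integer. -/
def IsScalarOnP (p : ℕ) (σ : GQE) : Prop :=
  ∃ s : ℤ, ∀ P : PtsE W, (p : ℤ) • P = 0 → σ • P = s • P

theorem mem_torsE_pow_of_p_smul {p : ℕ} {n : ℕ} (hn : 1 ≤ n) {P : PtsE W}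
    (hP : (p : ℤ) • P = 0) : P ∈ Submodule.torsionBy ℤ (PtsE W) ((p ^ n : ℕ) : ℤ) := by
  rw [Submodule.mem_torsionBy_iff]
  obtain ⟨k, rfl⟩ : ∃ k, n = k + 1 := ⟨n - 1, by omega⟩
  rw [Nat.cast_pow, pow_succ, mul_smul, hP]
  exact zsmul_zero _

/-- If `ρ_{p^n}(σ)` is a scalar on the `p`-torsion of `E[p^n]`, then `σ` is a scalar on `E[p]`. -/
theorem isScalarOnP_of_end (p : ℕ) (n : ℕ) (hn : 1 ≤ n) (σ : GQE)
    (h : ∃ s : ZMod (p ^ n), ∀ x : TorsE W (p ^ n), (p : ZMod (p ^ n)) • x = 0 →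
      rhoFin W (p ^ n) σ x = s • x) :
    IsScalarOnP W p σ := by
  obtain ⟨s, hs⟩ := h
  obtain ⟨s', rfl⟩ := ZMod.intCast_surjective s
  refine ⟨s', fun P hP => ?_⟩
  have hmem := mem_torsE_pow_of_p_smul W hn hP
  have h1 := hs ⟨P, hmem⟩ (by
    apply Subtype.ext
    have h3 := coe_zmod_smul_torsE W (p ^ n) (p : ℤ) ⟨P, hmem⟩
    simp only [Int.cast_natCast] at h3
    rw [h3]
    exact hP)
  have h2 := congrArg Subtype.val h1
  rw [rhoFin_apply, coe_smul_torsE, coe_zmod_smul_torsE] at h2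
  exact h2

theorem p_smul_galois_smul {p : ℕ} (σ : GQE) {P : PtsE W} (hP : (p : ℤ) • P = 0) :
    (p : ℤ) • (σ • P) = 0 := by
  rw [← algEquiv_smul_zsmul, hP]
  exact smul_zero (A := PtsE W) σ

theorem IsScalarOnP.pow {p : ℕ} {τ : GQE} (h : IsScalarOnP W p τ) (j : ℕ) :
    IsScalarOnP W p (τ ^ j) := by
  obtain ⟨s, hs⟩ := h
  refine ⟨s ^ j, fun P hP => ?_⟩
  induction j with
  | zero => simp
  | succ j ih =>
    rw [pow_succ, mul_smul, hs P hP, algEquiv_smul_zsmul, ih, pow_succ, mul_smul]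
    rw [smul_comm]

/-- If `σ` is a scalar on `E[p]` and `h` is not, then `σ * h` is not. -/
theorem not_isScalarOnP_mul {p : ℕ} (hp : p.Prime) {σ h : GQE} (hσ : IsScalarOnP W p σ)
    (hh : ¬ IsScalarOnP W p h) : ¬ IsScalarOnP W p (σ * h) := by
  rintro ⟨u, hu⟩
  obtain ⟨t, ht⟩ := hσ
  apply hh
  by_cases hpt : (p : ℤ) ∣ t
  · -- `σ` kills `E[p]`, so `E[p] = 0`
    refine ⟨0, fun P hP => ?_⟩
    have h0 : ∀ Q : PtsE W, (p : ℤ) • Q = 0 → Q = 0 := by
      intro Q hQ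
      have h1 : σ • Q = 0 := by
        rw [ht Q hQ]
        obtain ⟨c, rfl⟩ := hpt
        rw [mul_comm, mul_smul, hQ]
        exact zsmul_zero _
      have h2 : σ⁻¹ • σ • Q = σ⁻¹ • (0 : PtsE W) := by rw [h1]
      rw [inv_smul_smul] at h2
      exact h2.trans (smul_zero (A := PtsE W) σ⁻¹)
    rw [h0 _ (p_smul_galois_smul W h hP)]
    exact (zero_zsmul _).symm
  · have hcop : IsCoprime (p : ℤ) t :=
      (Prime.coprime_iff_not_dvd (Nat.prime_iff_prime_int.1 hp)).2 hpt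
    obtain ⟨a, c, hac⟩ := hcop
    -- `a * p + c * t = 1`
    refine ⟨c * u, fun P hP => ?_⟩
    have hQ := p_smul_galois_smul W h hP
    have h1 : t • (h • P) = u • P := by
      rw [← ht _ hQ, ← mul_smul]
      exact hu P hP
    calc h • P = (a * p + c * t) • (h • P) := by rw [hac, one_smul]
      _ = c • (t • (h • P)) := by
          rw [add_zsmul, mul_smul, hQ, zsmul_zero, zero_add, mul_smul]
      _ = (c * u) • P := by rw [h1, mul_smul]

/-! ### The field cut out by `E[m]` and `μ_m` -/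

/-- `x`-coordinate (`0` at the origin). -/
noncomputable def xCoordE : PtsE W → QbE
  | .zero => 0
  | .some x _ _ => x

/-- `y`-coordinate (`0` at the origin). -/
noncomputable def yCoordE : PtsE W → QbE
  | .zero => 0
  | .some _ y _ => y

theorem galois_smul_eq_of_coord (g g' : GQE) (P : PtsE W) (hx : g (xCoordE W P) = g' (xCoordE W P))
    (hy : g (yCoordE W P) = g' (yCoordE W P)) : g • P = g' • P := by
  cases P with
  | zero => rfl
  | some x y h =>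
    rw [algEquiv_smul_def, algEquiv_smul_def, Point.map_some, Point.map_some]
    simp only [xCoordE, yCoordE] at hx hy
    rw [Point.some.injEq]
    exact ⟨hx, hy⟩

/-- generators of the field of definition of `E[m]` and `μ_m` -/
def genSetE (m : ℕ) : Set QbE :=
  (Set.range fun P : TorsE W m => xCoordE W (P : PtsE W)) ∪
    (Set.range fun P : TorsE W m => yCoordE W (P : PtsE W)) ∪ {z | z ^ m = 1}

theorem finite_genSetE (m : ℕ) (hm : 0 < m) [Finite (TorsE W m)] : (genSetE W m).Finite := by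
  refine Set.Finite.union (Set.Finite.union (Set.finite_range _) (Set.finite_range _)) ?_
  refine Set.Finite.subset (Polynomial.nthRootsFinset m (1 : QbE)).finite_toSet ?_
  intro z hz
  exact (Polynomial.mem_nthRootsFinset hm 1).2 hz

/-- the field of definition of `E[m]` and `μ_m` -/
noncomputable def fieldE (m : ℕ) : IntermediateField ℚ QbE :=
  IntermediateField.adjoin ℚ (genSetE W m)

theorem finiteDimensional_fieldE (m : ℕ) (hm : 0 < m) [Finite (TorsE W m)] :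
    FiniteDimensional ℚ (fieldE W m) := by
  have : Finite (genSetE W m) := (finite_genSetE W m hm).to_subtype
  have halg : Algebra.IsAlgebraic ℚ QbE := AlgebraicClosure.isAlgebraic ℚ
  exact IntermediateField.finiteDimensional_adjoin
    (fun x _ => (halg.isAlgebraic x).isIntegral)

theorem root_mem_fieldE (m : ℕ) {μ : QbE} (hμ : μ ^ m = 1) : μ ∈ fieldE W m :=
  IntermediateField.subset_adjoin ℚ _ (Or.inr hμ)

theorem rhoFin_eq_of_agree (m : ℕ) (g g' : GQE) (h : ∀ z ∈ fieldE W m, g z = g' z) :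
    rhoFin W m g = rhoFin W m g' := by
  apply LinearMap.ext
  intro x
  apply Subtype.ext
  rw [rhoFin_apply, rhoFin_apply, coe_smul_torsE, coe_smul_torsE]
  apply galois_smul_eq_of_coord
  · exact h _ (IntermediateField.subset_adjoin ℚ _ (Or.inl (Or.inl ⟨x, rfl⟩)))
  · exact h _ (IntermediateField.subset_adjoin ℚ _ (Or.inl (Or.inr ⟨x, rfl⟩)))

/-! ### Determinant and trace of Frobenius -/

theorem not_dvd_pow_of_prime_ne {p ℓ : ℕ} (hp : p.Prime) (hℓ : ℓ.Prime) (hℓp : ℓ ≠ p) (n : ℕ) :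
    ¬ ℓ ∣ p ^ n := by
  intro h
  exact hℓp ((Nat.prime_dvd_prime_iff_eq hℓ hp).1 (hℓ.dvd_of_dvd_pow h))

/-- Trace and determinant of a Frobenius element (at a good prime `ℓ ≥ 5`, `ℓ ≠ p`) that does not
act as a scalar on `E[p]`. -/
theorem trace_det_frob_of_nonscalar (hFrob : Fermat.Agent.Lib.Frob.FrobRelation)
    {p : ℕ} (hp : p.Prime) {n : ℕ} (hn : 1 ≤ n)
    (b : Module.Basis (Fin 2) (ZMod (p ^ n)) (TorsE W (p ^ n)))
    (ℓ : ℕ) (hℓ : ℓ.Prime) (h5 : 5 ≤ ℓ) (hℓp : ℓ ≠ p) (hgood : W.IsGoodPrimeFor ℓ)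
    (A : ValuationSubring QbE) (τ : GQE) (hA : A.LiesOverPrime ℓ) (hτ : A.IsFrobeniusAt τ ℓ)
    (hns : ¬ IsScalarOnP W p τ) :
    LinearMap.trace (ZMod (p ^ n)) (TorsE W (p ^ n)) (rhoFin W (p ^ n) τ)
        = ((W.apOfModel ℓ : ℤ) : ZMod (p ^ n)) ∧
      LinearMap.det (rhoFin W (p ^ n) τ) = ((ℓ : ℤ) : ZMod (p ^ n)) :=
  det_trace_of_relation hp hn b _ _ _
    (frob_relation_end W hFrob ℓ hℓ h5 hgood A τ hA hτ (p ^ n) (pow_pos hp.pos n)
      (not_dvd_pow_of_prime_ne hp hℓ hℓp n))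
    (fun h => hns (isScalarOnP_of_end W p n hn τ h))

theorem frob_pow_apply_root (p : ℕ) (hp : p.Prime) (n : ℕ) (ℓ : ℕ) (hℓ : ℓ.Prime) (hℓp : ℓ ≠ p)
    (A : ValuationSubring QbE) (τ : GQE) (hA : A.LiesOverPrime ℓ) (hτ : A.IsFrobeniusAt τ ℓ)
    (j : ℕ) (μ : QbE) (hμ : μ ^ p ^ n = 1) : (τ ^ j) μ = μ ^ (ℓ ^ j) := by
  induction j generalizing μ with
  | zero => simp
  | succ j ih =>
    have hμ' : (μ ^ ℓ) ^ p ^ n = 1 := by rw [← pow_mul, mul_comm, pow_mul, hμ, one_pow]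
    rw [pow_succ, AlgEquiv.mul_apply, frob_apply_root p hp n ℓ hℓ hℓp A τ hA hτ μ hμ, ih _ hμ',
      ← pow_mul, pow_succ, mul_comm]

/-- the primes to avoid: those `< 5`, `p`, and the primes dividing `Δ` -/
noncomputable def badSetE (p : ℕ) : Finset ℕ :=
  Finset.range 5 ∪ {p} ∪ W.Δ.natAbs.primeFactors

theorem good_of_notMem_badSetE (hΔ : W.Δ ≠ 0) {p ℓ : ℕ} (hℓ : ℓ.Prime) (h : ℓ ∉ badSetE W p) :
    5 ≤ ℓ ∧ ℓ ≠ p ∧ W.IsGoodPrimeFor ℓ := by
  simp only [badSetE, Finset.mem_union, Finset.mem_range, Finset.mem_singleton,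
    Nat.mem_primeFactors, not_or, not_lt] at h
  obtain ⟨⟨h5, hℓp⟩, h3⟩ := h
  refine ⟨h5, hℓp, fun hdvd => h3 ⟨hℓ, Int.natCast_dvd.1 hdvd, ?_⟩⟩
  simpa using hΔ

section Main

variable (hFrob : Fermat.Agent.Lib.Frob.FrobRelation)
  (hCheb : Fermat.Agent.Lib.Cheb.Spec.FrobeniusDivisionStatement)
  (hΔ : W.Δ ≠ 0) (p : ℕ) [Fact p.Prime] (n : ℕ) (hn : 1 ≤ n)
  (b : Module.Basis (Fin 2) (ZMod (p ^ n)) (TorsE W (p ^ n)))

include hFrob hCheb hΔ hn b

/-- (E3), for `σ` not a scalar on `E[p]`. -/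
theorem det_rhoFin_eq_cycloPow_of_nonscalar (σ : GQE) (hns : ¬ IsScalarOnP W p σ) :
    LinearMap.det (rhoFin W (p ^ n) σ)
      = ((Fermat.Agent.S55.H414.cycloPow (p ^ n) σ : (ZMod (p ^ n))ˣ) : ZMod (p ^ n)) := by
  have hp : p.Prime := Fact.out
  have hfin : Module.Finite (ZMod (p ^ n)) (TorsE W (p ^ n)) := Module.Finite.of_basis b
  have hfin' : Finite (TorsE W (p ^ n)) := Module.finite_of_finite (ZMod (p ^ n))
  obtain ⟨ℓ, A, τ, k, j, hℓ, hℓS, hA, hτ, -, -, hστ⟩ :=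
    hCheb (fieldE W (p ^ n)) (finiteDimensional_fieldE W (p ^ n) (pow_pos hp.pos n)) σ
      (badSetE W p)
  obtain ⟨h5, hℓp, hgood⟩ := good_of_notMem_badSetE W hΔ hℓ hℓS
  have e0 : rhoFin W (p ^ n) σ = rhoFin W (p ^ n) (τ ^ j) :=
    rhoFin_eq_of_agree W (p ^ n) σ (τ ^ j) (fun z hz => (hστ z hz).symm)
  have hτns : ¬ IsScalarOnP W p τ := by
    intro hτs
    apply hns
    obtain ⟨s, hs⟩ := hτs.pow W j
    refine ⟨s, fun P hP => ?_⟩
    rw [← hs P hP]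
    have hmem := mem_torsE_pow_of_p_smul W (n := n) hn hP
    have h1 := congrArg (fun f : Module.End (ZMod (p ^ n)) (TorsE W (p ^ n)) =>
      ((f ⟨P, hmem⟩ : TorsE W (p ^ n)) : PtsE W)) e0
    exact h1
  obtain ⟨-, hdet⟩ :=
    trace_det_frob_of_nonscalar W hFrob hp hn b ℓ hℓ h5 hℓp hgood A τ hA hτ hτns
  have hζ : σ (Fermat.Agent.S55.H414.zetaBar (p ^ n))
      = Fermat.Agent.S55.H414.zetaBar (p ^ n) ^ (ℓ ^ j) := by
    have hone := (Fermat.Agent.S55.H414.zetaBar_spec (p ^ n)).pow_eq_one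
    rw [← hστ _ (root_mem_fieldE W (p ^ n) hone)]
    exact frob_pow_apply_root p hp n ℓ hℓ hℓp A τ hA hτ j _ hone
  rw [e0, map_pow, map_pow, hdet,
    Fermat.Agent.S55.H414.coe_cycloPow_of_apply_eq_pow (p ^ n) σ (ℓ ^ j) hζ]
  push_cast
  rfl

/-- **(E3) The determinant of `E[p^n]` is the mod `p^n` cyclotomic character.** -/
theorem det_rhoFin_eq_cycloPow (hex : ∃ h : GQE, ¬ IsScalarOnP W p h) (σ : GQE) :
    LinearMap.det (rhoFin W (p ^ n) σ)
      = ((Fermat.Agent.S55.H414.cycloPow (p ^ n) σ : (ZMod (p ^ n))ˣ) : ZMod (p ^ n)) := by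
  have hp : p.Prime := Fact.out
  by_cases hσ : IsScalarOnP W p σ
  · obtain ⟨h, hh⟩ := hex
    have h1 := det_rhoFin_eq_cycloPow_of_nonscalar W hFrob hCheb hΔ p n hn b h hh
    have h2 := det_rhoFin_eq_cycloPow_of_nonscalar W hFrob hCheb hΔ p n hn b (σ * h)
      (not_isScalarOnP_mul W hp hσ hh)
    rw [map_mul, map_mul, map_mul, h1, Units.val_mul] at h2
    exact (Units.isUnit _).mul_left_injective h2
  · exact det_rhoFin_eq_cycloPow_of_nonscalar W hFrob hCheb hΔ p n hn b σ hσ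

/-- **(E3)**, in the form of the Prelude's `GaloisRepAdic.DetIsCyclotomic`. -/
theorem det_rhoFin_eq_natCast (hex : ∃ h : GQE, ¬ IsScalarOnP W p h) (σ : GQE) (a : ℕ)
    (ha : ∀ μ : QbE, μ ^ p ^ n = 1 → σ μ = μ ^ a) :
    LinearMap.det (rhoFin W (p ^ n) σ) = (a : ZMod (p ^ n)) := by
  rw [det_rhoFin_eq_cycloPow W hFrob hCheb hΔ p n hn b hex σ]
  exact Fermat.Agent.S55.H414.coe_cycloPow_of_apply_eq_pow (p ^ n) σ a
    (ha _ (Fermat.Agent.S55.H414.zetaBar_spec (p ^ n)).pow_eq_one)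

/-- **(E2) determinant of Frobenius.** -/
theorem det_rhoFin_frob (hex : ∃ h : GQE, ¬ IsScalarOnP W p h)
    (ℓ : ℕ) (hℓ : ℓ.Prime) (hℓp : ℓ ≠ p)
    (A : ValuationSubring QbE) (hA : A.LiesOverPrime ℓ) (τ : GQE) (hτ : A.IsFrobeniusAt τ ℓ) :
    LinearMap.det (rhoFin W (p ^ n) τ) = (ℓ : ZMod (p ^ n)) :=
  det_rhoFin_eq_natCast W hFrob hCheb hΔ p n hn b hex τ ℓ
    (fun μ hμ => frob_apply_root p Fact.out n ℓ hℓ hℓp A τ hA hτ μ hμ)

/-- **(E2) trace of Frobenius.** -/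
theorem trace_rhoFin_frob (hex : ∃ h : GQE, ¬ IsScalarOnP W p h)
    (ℓ : ℕ) (hℓ : ℓ.Prime) (h5 : 5 ≤ ℓ) (hgood : W.IsGoodPrimeFor ℓ) (hℓp : ℓ ≠ p)
    (A : ValuationSubring QbE) (hA : A.LiesOverPrime ℓ) (τ : GQE) (hτ : A.IsFrobeniusAt τ ℓ) :
    LinearMap.trace (ZMod (p ^ n)) (TorsE W (p ^ n)) (rhoFin W (p ^ n) τ)
      = ((W.apOfModel ℓ : ℤ) : ZMod (p ^ n)) := by
  have hp : p.Prime := Fact.out
  refine trace_of_relation_of_det b _ _ ((ℓ : ℤ) : ZMod (p ^ n))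
    (frob_relation_end W hFrob ℓ hℓ h5 hgood A τ hA hτ (p ^ n) (pow_pos hp.pos n)
      (not_dvd_pow_of_prime_ne hp hℓ hℓp n)) ?_ ⟨rhoFin W (p ^ n) τ⁻¹, ?_⟩
  · rw [det_rhoFin_frob W hFrob hCheb hΔ p n hn b hex ℓ hℓ hℓp A hA τ hτ]
    simp
  · rw [← map_mul, inv_mul_cancel, map_one]

/-- **(E2) characteristic polynomial of Frobenius** at a prime `ℓ ≥ 5`, `ℓ ≠ p`, of good
reduction: `X² − a_ℓ X + ℓ`. -/
theorem charpoly_rhoFin_frob (hex : ∃ h : GQE, ¬ IsScalarOnP W p h)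
    (ℓ : ℕ) (hℓ : ℓ.Prime) (h5 : 5 ≤ ℓ) (hgood : W.IsGoodPrimeFor ℓ) (hℓp : ℓ ≠ p)
    (A : ValuationSubring QbE) (hA : A.LiesOverPrime ℓ) (τ : GQE) (hτ : A.IsFrobeniusAt τ ℓ) :
    haveI := Module.Free.of_basis b
    haveI := Module.Finite.of_basis b
    LinearMap.charpoly (rhoFin W (p ^ n) τ)
      = X ^ 2 - C ((W.apOfModel ℓ : ℤ) : ZMod (p ^ n)) * X + C ((ℓ : ZMod (p ^ n))) := by
  have hp : p.Prime := Fact.out
  have : Nontrivial (ZMod (p ^ n)) :=
    ZMod.nontrivial_iff.2 (Nat.one_lt_pow (by omega) hp.one_lt).ne'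
  rw [end_charpoly_eq b,
    trace_rhoFin_frob W hFrob hCheb hΔ p n hn b hex ℓ hℓ h5 hgood hℓp A hA τ hτ,
    det_rhoFin_frob W hFrob hCheb hΔ p n hn b hex ℓ hℓ hℓp A hA τ hτ]

end Main

/-! ### Irreducibility gives a non-scalar element -/

/-- If `E[p]` is irreducible with `p²` points, some element of `G_ℚ` does not act as a scalar on
`E[p]`. -/
theorem exists_not_isScalarOnP (p : ℕ) [Fact p.Prime] (hirr : W.ModRepIsIrreducible p)
    (hcard : Nat.card (TorsE W p) = p ^ 2) : ∃ h : GQE, ¬ IsScalarOnP W p h := by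
  by_contra hall
  simp only [not_exists, not_not] at hall
  have hp : p.Prime := Fact.out
  obtain ⟨hnt, hirr⟩ := hirr
  obtain ⟨x, hx⟩ := exists_ne (0 : TorsE W p)
  have hstable : IsGaloisStable ℚ (Submodule.span (ZMod p) {x}) := by
    intro σ y hy
    obtain ⟨c, rfl⟩ := Submodule.mem_span_singleton.1 hy
    obtain ⟨s, hs⟩ := hall σ
    rw [Submodule.mem_span_singleton]
    refine ⟨c * (s : ZMod p), ?_⟩
    have h1 : σ • x = (s : ZMod p) • x := by
      apply Subtype.ext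
      rw [coe_smul_torsE, coe_zmod_smul_torsE]
      exact hs x (by have h2 := x.2; rwa [Submodule.mem_torsionBy_iff] at h2)
    rw [smul_comm σ c x, h1, mul_smul]
  rcases hirr _ hstable with h | h
  · exact hx ((Submodule.span_singleton_eq_bot).1 h)
  · have hsurj : Function.Surjective (fun c : ZMod p => c • x) := by
      intro y
      have hy : y ∈ Submodule.span (ZMod p) {x} := by rw [h]; trivial
      exact Submodule.mem_span_singleton.1 hy
    have hle : Nat.card (TorsE W p) ≤ Nat.card (ZMod p) :=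
      Nat.card_le_card_of_surjective _ hsurj
    rw [hcard, Nat.card_zmod] at hle
    nlinarith [hp.one_lt]

end Fermat.Agent.S59.H667
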