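import Mathlib

/-!
# S59 / layer E, pieces E2+E3 (helper667): linear algebra

Rank two endomorphisms satisfying a monic quadratic relation.

* `end_trace_sub_smul` : `f² - a f + c = 0` implies `(tr f - a) • f = (det f - c) • 1`
  (Cayley–Hamilton in rank 2);
* `end_charpoly_eq` : `charpoly f = X² - tr f X + det f`;
* `exists_scalar_on_ptorsion` : over `ZMod (p^n)`, if `c • f` is a scalar for some `c ≠ 0`, then `f`
  acts as a scalar on the `p`-torsion.  Hence (`det_trace_of_relation`): if `f` is NOT a scalar on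
  the `p`-torsion, the relation `f² - a f + c = 0` forces `tr f = a` and `det f = c`.
-/

set_option autoImplicit false

namespace Fermat.Agent.S59.H667

open Matrix Polynomial

section TwoByTwo

variable {R : Type*} [CommRing R]

/-- Cayley–Hamilton for `2 × 2` matrices. -/
theorem mat2_cayley_hamilton (M : Matrix (Fin 2) (Fin 2) R) :
    M * M - M.trace • M + M.det • (1 : Matrix (Fin 2) (Fin 2) R) = 0 := by
  ext i j
  fin_cases i <;> fin_cases j <;>
    simp [Matrix.mul_apply, Fin.sum_univ_two, Matrix.trace, Matrix.det_fin_two] <;> ring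

theorem mat2_trace_sub_smul (M : Matrix (Fin 2) (Fin 2) R) (a b : R)
    (h : M * M - a • M + b • (1 : Matrix (Fin 2) (Fin 2) R) = 0) :
    (M.trace - a) • M = (M.det - b) • (1 : Matrix (Fin 2) (Fin 2) R) := by
  have h1 := mat2_cayley_hamilton M
  have h2 : (M.trace - a) • M - (M.det - b) • (1 : Matrix (Fin 2) (Fin 2) R) =
      (M * M - a • M + b • 1) - (M * M - M.trace • M + M.det • 1) := by
    simp only [sub_smul]
    abel
  rw [h, h1, sub_zero] at h2
  exact sub_eq_zero.1 h2

variable {V : Type*} [AddCommGroup V] [Module R V]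

theorem end_trace_sub_smul (b : Module.Basis (Fin 2) R V) (f : Module.End R V) (a c : R)
    (h : f * f - a • f + c • (1 : Module.End R V) = 0) :
    (LinearMap.trace R V f - a) • f = (LinearMap.det f - c) • (1 : Module.End R V) := by
  have hM := congrArg (LinearMap.toMatrix b b) h
  simp only [map_add, map_sub, map_smul, LinearMap.toMatrix_mul, LinearMap.toMatrix_one,
    map_zero] at hM
  have h2 := mat2_trace_sub_smul _ a c hM
  rw [← LinearMap.trace_eq_matrix_trace R b f, LinearMap.det_toMatrix b f] at h2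
  apply (LinearMap.toMatrix b b).injective
  simp only [map_smul, LinearMap.toMatrix_one]
  exact h2

theorem end_charpoly_eq [Nontrivial R] (b : Module.Basis (Fin 2) R V) (f : Module.End R V) :
    haveI := Module.Free.of_basis b
    haveI := Module.Finite.of_basis b
    LinearMap.charpoly f = X ^ 2 - C (LinearMap.trace R V f) * X + C (LinearMap.det f) := by
  haveI := Module.Free.of_basis b
  haveI := Module.Finite.of_basis b
  rw [← LinearMap.charpoly_toMatrix f b, Matrix.charpoly_fin_two,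
    ← LinearMap.trace_eq_matrix_trace R b f, LinearMap.det_toMatrix b f]

end TwoByTwo

section ZModPow

variable {p n : ℕ} {V : Type*} [AddCommGroup V] [Module (ZMod (p ^ n)) V]

/-- a nonzero element of `ZMod (p^n)` is `p^k * unit` with `k < n` -/
theorem zmod_pow_exists_eq (hp : p.Prime) (c : ZMod (p ^ n)) (hc : c ≠ 0) :
    ∃ (k : ℕ) (u : ZMod (p ^ n)), k < n ∧ IsUnit u ∧ c = (p : ZMod (p ^ n)) ^ k * u := by
  haveI : NeZero (p ^ n) := ⟨pow_ne_zero n hp.ne_zero⟩
  have hv : c.val ≠ 0 := by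
    intro h
    exact hc ((ZMod.val_eq_zero c).1 h)
  obtain ⟨k, t, ht, hkt⟩ := Nat.exists_eq_pow_mul_and_not_dvd hv p hp.ne_one
  have hlt : c.val < p ^ n := ZMod.val_lt c
  have htpos : 0 < t := by
    rcases Nat.eq_zero_or_pos t with h | h
    · subst h; simp at ht
    · exact h
  have hk : k < n := by
    by_contra hkn
    push_neg at hkn
    have h1 : p ^ n ≤ p ^ k := Nat.pow_le_pow_right hp.pos hkn
    have h2 : p ^ k ≤ c.val := by
      rw [hkt]
      exact Nat.le_mul_of_pos_right _ htpos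
    omega
  refine ⟨k, (t : ZMod (p ^ n)), hk, ?_, ?_⟩
  · rw [ZMod.isUnit_iff_coprime]
    exact Nat.Coprime.pow_right n ((Nat.Prime.coprime_iff_not_dvd hp).2 ht).symm
  · have : c = ((c.val : ℕ) : ZMod (p ^ n)) := (ZMod.natCast_zmod_val c).symm
    rw [this, hkt]
    push_cast
    rfl

/-- an element killed by `p` is divisible by `p^(n-1)` -/
theorem exists_eq_pow_smul_of_p_smul_eq_zero (hp : p.Prime) (hn : 1 ≤ n)
    (b : Module.Basis (Fin 2) (ZMod (p ^ n)) V) (x : V)
    (hx : (p : ZMod (p ^ n)) • x = 0) :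
    ∃ y : V, x = (p : ZMod (p ^ n)) ^ (n - 1) • y := by
  haveI : NeZero (p ^ n) := ⟨pow_ne_zero n hp.ne_zero⟩
  have hcoord : ∀ i, ∃ z : ZMod (p ^ n), b.repr x i = (p : ZMod (p ^ n)) ^ (n - 1) * z := by
    intro i
    have h1 : (p : ZMod (p ^ n)) * b.repr x i = 0 := by
      have := congrArg (fun v => b.repr v i) hx
      simpa using this
    set v := (b.repr x i).val with hv
    have h2 : ((p * v : ℕ) : ZMod (p ^ n)) = 0 := by
      push_cast
      rw [hv, ZMod.natCast_zmod_val]
      exact h1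
    rw [ZMod.natCast_eq_zero_iff] at h2
    have h3 : p ^ (n - 1) ∣ v := by
      have h4 : p ^ n = p * p ^ (n - 1) := by
        rw [← pow_succ']
        congr 1
        omega
      rw [h4] at h2
      exact (Nat.mul_dvd_mul_iff_left hp.pos).1 h2
    obtain ⟨w, hw⟩ := h3
    refine ⟨(w : ZMod (p ^ n)), ?_⟩
    have : b.repr x i = ((v : ℕ) : ZMod (p ^ n)) := (ZMod.natCast_zmod_val _).symm
    rw [this, hw]
    push_cast
    rfl
  choose z hz using hcoord
  refine ⟨∑ i, z i • b i, ?_⟩
  rw [Finset.smul_sum]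
  conv_lhs => rw [← b.sum_repr x]
  refine Finset.sum_congr rfl fun i _ => ?_
  rw [hz i, mul_smul]

/-- If a nonzero multiple of `f` is a scalar, then `f` is a scalar on the `p`-torsion. -/
theorem exists_scalar_on_ptorsion (hp : p.Prime) (hn : 1 ≤ n)
    (b : Module.Basis (Fin 2) (ZMod (p ^ n)) V) (f : Module.End (ZMod (p ^ n)) V)
    (c e : ZMod (p ^ n)) (hc : c ≠ 0) (h : c • f = e • (1 : Module.End (ZMod (p ^ n)) V)) :
    ∃ s : ZMod (p ^ n), ∀ x : V, (p : ZMod (p ^ n)) • x = 0 → f x = s • x := by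
  obtain ⟨k, u, hk, hu, rfl⟩ := zmod_pow_exists_eq hp c hc
  obtain ⟨u', rfl⟩ := hu
  -- `p^k • f = e' • 1`
  set e' : ZMod (p ^ n) := (↑u'⁻¹ : ZMod (p ^ n)) * e with he'
  have h1 : ((p : ZMod (p ^ n)) ^ k) • f = e' • (1 : Module.End (ZMod (p ^ n)) V) := by
    have := congrArg (fun g => (↑u'⁻¹ : ZMod (p ^ n)) • g) h
    simp only [smul_smul] at this
    rw [← this]
    congr 1
    rw [mul_comm ((p : ZMod (p ^ n)) ^ k), ← mul_assoc, Units.inv_mul, one_mul]
  set α : ZMod (p ^ n) := b.repr (f (b 0)) 0 with hα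
  have h2 : (p : ZMod (p ^ n)) ^ k * α = e' := by
    have := congrArg (fun g : Module.End (ZMod (p ^ n)) V => b.repr (g (b 0)) 0) h1
    simpa using this
  refine ⟨α, fun x hx => ?_⟩
  obtain ⟨y, rfl⟩ := exists_eq_pow_smul_of_p_smul_eq_zero hp hn b x hx
  have hsplit : (p : ZMod (p ^ n)) ^ (n - 1) = (p : ZMod (p ^ n)) ^ k * (p : ZMod (p ^ n)) ^ (n - 1 - k) := by
    rw [← pow_add]
    congr 1
    omega
  rw [hsplit, mul_smul]
  set y' := (p : ZMod (p ^ n)) ^ (n - 1 - k) • y
  have h3 : f ((p : ZMod (p ^ n)) ^ k • y') = (((p : ZMod (p ^ n)) ^ k) • f) y' := by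
    rw [LinearMap.smul_apply, map_smul]
  rw [h3, h1, LinearMap.smul_apply, Module.End.one_apply, ← h2, mul_smul, smul_comm]

/-- **Key lemma.** If `f` satisfies `f² - a f + c = 0` and is not a scalar on the `p`-torsion,
then `tr f = a` and `det f = c`. -/
theorem det_trace_of_relation (hp : p.Prime) (hn : 1 ≤ n)
    (b : Module.Basis (Fin 2) (ZMod (p ^ n)) V) (f : Module.End (ZMod (p ^ n)) V)
    (a c : ZMod (p ^ n))
    (h : f * f - a • f + c • (1 : Module.End (ZMod (p ^ n)) V) = 0)
    (hns : ¬ ∃ s : ZMod (p ^ n), ∀ x : V, (p : ZMod (p ^ n)) • x = 0 → f x = s • x) :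
    LinearMap.trace (ZMod (p ^ n)) V f = a ∧ LinearMap.det f = c := by
  have h1 := end_trace_sub_smul b f a c h
  have h2 : LinearMap.trace (ZMod (p ^ n)) V f - a = 0 := by
    by_contra hne
    exact hns (exists_scalar_on_ptorsion hp hn b f _ _ hne h1)
  rw [h2, zero_smul] at h1
  refine ⟨sub_eq_zero.1 h2, ?_⟩
  have h3 := congrArg (fun g : Module.End (ZMod (p ^ n)) V => b.repr (g (b 0)) 0) h1
  simp only [LinearMap.zero_apply, map_zero, Finsupp.coe_zero, Pi.zero_apply, LinearMap.smul_apply,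
    Module.End.one_apply, map_smul, Finsupp.smul_apply, Module.Basis.repr_self,
    Finsupp.single_eq_same, smul_eq_mul, mul_one] at h3
  exact sub_eq_zero.1 h3.symm

/-- If `f² - a f + c = 0`, `det f = c` and `f` is invertible, then `tr f = a`. -/
theorem trace_of_relation_of_det
    (b : Module.Basis (Fin 2) (ZMod (p ^ n)) V) (f : Module.End (ZMod (p ^ n)) V)
    (a c : ZMod (p ^ n))
    (h : f * f - a • f + c • (1 : Module.End (ZMod (p ^ n)) V) = 0)
    (hdet : LinearMap.det f = c) (hinv : ∃ g : Module.End (ZMod (p ^ n)) V, g * f = 1) :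
    LinearMap.trace (ZMod (p ^ n)) V f = a := by
  have h1 := end_trace_sub_smul b f a c h
  rw [hdet, sub_self, zero_smul] at h1
  obtain ⟨g, hg⟩ := hinv
  have h2 : (LinearMap.trace (ZMod (p ^ n)) V f - a) • (1 : Module.End (ZMod (p ^ n)) V) = 0 := by
    have := congrArg (fun t => g * t) h1
    simp only [mul_smul_comm, hg, mul_zero] at this
    exact this
  have h3 := congrArg (fun g : Module.End (ZMod (p ^ n)) V => b.repr (g (b 0)) 0) h2
  simp only [LinearMap.zero_apply, map_zero, Finsupp.coe_zero, Pi.zero_apply, LinearMap.smul_apply,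
    Module.End.one_apply, map_smul, Finsupp.smul_apply, Module.Basis.repr_self,
    Finsupp.single_eq_same, smul_eq_mul, mul_one] at h3
  exact sub_eq_zero.1 h3

end ZModPow

end Fermat.Agent.S59.H667
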